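import Fermat.Agent.OrdinaryAtP.Coord.Congruent
import Fermat.Agent.JacTorsion.Main

/-!
# No trivial quotient of the moved torsion at level `p M`
-/

set_option autoImplicit false

noncomputable section

namespace Fermat.Agent.OrdinaryAtP

open ModularCurve AlgebraicCurve Semistable
open Arith (QBar GQ)
open scoped Pointwise

/-- **No trivial quotient.** For `4 ∣ M` and `p` prime to `M`, an inertia stable group of moved
`p`-torsion classes at level `p M` has no nonzero invariant map to `ℤ/p`. -/
theorem noTrivialQuotient {p : ℕ} [Fact p.Prime] (hp2 : p ≠ 2) {A : ValuationSubring QBar}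
    (hA : A.LiesOverPrime p) {M : ℕ} [NeZero M] (h4 : 4 ∣ M) (hpM : ¬ p ∣ M) :
    NoTrivialQuotient A (p * M) p := by
  have hp : p.Prime := Fact.out
  have : CharP (Res A) p := Arith.residueField_charP hA hp
  have hM : (M : Res A) ≠ 0 := fun h0 => hpM ((CharP.cast_eq_zero_iff (Res A) p M).mp h0)
  have : FF.IsFunctionField (Res A) (KM A M) := isFunctionField_KM A hM
  have h : Setup A M p := ⟨hA, hpM, hM, goodM_of_dvd (Or.inl rfl) h4 hM⟩
  intro H hle hpH hstab π hπ
  have : Finite H := by
    have := JacTorsion.finite_torsion_JZero (N := p * M) (m := p)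
    refine Finite.of_injective (fun y : H => (⟨(y : JZero (p * M)), Pic0.mem_torsion.mpr (by
      rw [natCast_zsmul]; exact hpH y y.2)⟩ :
      Pic0.torsion (AlgebraicClosure ℚ) (modularFunctionFieldBar (p * M)) p)) fun y y' e =>
        Subtype.ext (congrArg (fun z : Pic0.torsion (AlgebraicClosure ℚ)
          (modularFunctionFieldBar (p * M)) p => (z : JZero (p * M))) e)
  obtain ⟨F⟩ := Coord.exists_frame (h := h) h4 H hle
  have := Coord.isPrincipalIdealRing_gaussW (q := p) hA
  refine (F.congruentAlgebra hstab).eq_zero_of_invariant ?_ Coord.natCast_gaussW_ne_zero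
    (Coord.not_isUnit_natCast_gaussW hA) π fun τ m => hπ τ τ.2 m
  have := hp.two_le
  omega

end Fermat.Agent.OrdinaryAtP

end
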