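import Fermat.Agent.OrdinaryAtP.Statement
import Fermat.Agent.OrdinaryAtP.Transfer
import Fermat.Agent.OrdinaryAtP.Restrict
import Fermat.Agent.GaloisReps.OfInjective

/-!
# Ordinarity of a datum from the geometric statement at level `4N`
-/

set_option autoImplicit false

noncomputable section

open AlgebraicCurve ModularCurve
open Fermat.Agent.GaloisReps

namespace Fermat.Agent.OrdinaryAtP

variable {N p : ℕ} [NeZero N] [Fact p.Prime]

theorem levelNoHom_of_noTrivialQuotient (hES : CongruenceProperty N p)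
    {P : ValuationSubring (AlgebraicClosure ℚ)} (hG : NoTrivialQuotient P N p) :
    LevelNoHom (modelOfCongruence hES) P := by
  intro M H hst hle hp φ hφ
  set E := torsionIso N p (conjProperty N)
  let i : ModelLevel (modelOfCongruence hES) M →+ JZero N :=
    (JTors N p M).subtype.comp (E.psi M).symm.toAddMonoidHom
  have hi : Function.Injective i := Subtype.val_injective.comp (E.psi M).symm.injective
  have hσ : ∀ (σ : AbsGal) (v : ModelLevel (modelOfCongruence hES) M), i (σ • v) = σ • i v := by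
    intro σ v
    refine congrArg Subtype.val ((AddEquiv.symm_apply_eq _).mpr (Eq.trans ?_
      (E.galLvl_mulVec M σ ((E.psi M).symm v))))
    refine Eq.trans (congrArg (fun A => Matrix.mulVec A
      (v : Fin (modelOfCongruence hES).d → ZMod (p ^ M))) (E.map_gal M σ)) ?_
    exact congrArg _ ((E.psi M).apply_symm_apply v).symm
  let e : H ≃+ H.map i := H.equivMapOfInjective i hi
  have hcoe : ∀ x : H, (e x : JZero N) = i x := fun x => rfl
  have h0 := hG (H.map i) ?_ ?_ ?hst (φ.comp e.symm.toAddMonoidHom) ?_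
  · refine AddMonoidHom.ext fun x => ?_
    have := DFunLike.congr_fun h0 (e x)
    simpa using this
  · rintro _ ⟨x, hx, rfl⟩
    have h1 := AddSubgroup.mem_map_of_mem i (hle hx)
    rw [AddMonoidHom.map_closure] at h1
    refine AddSubgroup.closure_mono ?_ h1
    rintro _ ⟨_, ⟨t, ht, v, rfl⟩, rfl⟩
    refine ⟨t, ht, i v, M, ?_, by rw [map_sub, hσ]⟩
    have := ((E.psi M).symm v).2
    rwa [Pic0.mem_torsion, natCast_zsmul] at this
  · rintro _ ⟨x, hx, rfl⟩
    rw [← map_nsmul, hp x hx, map_zero]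
  · rintro t ht _ ⟨x, hx, rfl⟩
    exact ⟨t • x, hst t ht x hx, hσ t x⟩
  · intro t ht y
    refine hφ t ht (e.symm y) (e.symm ⟨_, _⟩) (hi ?_)
    rw [hσ, ← hcoe, ← hcoe, e.apply_symm_apply, e.apply_symm_apply]

variable {S : Finset ℕ}
  {O : Type} [CommRing O] [IsDomain O] [IsDiscreteValuationRing O]
  [IsAdicComplete (IsLocalRing.maximalIdeal O) O]
  {θ : CuspForm.heckeAlgebra N 2 (↑S : Set ℕ) →+* IsLocalRing.ResidueField O}
  {T : Type} [CommRing T] [IsLocalRing T] [IsNoetherianRing T]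
  [IsAdicComplete (IsLocalRing.maximalIdeal T) T] [Algebra O T] [IsLocalHom (algebraMap O T)]
  [Module.Finite O T] [Module.Free O T]

/-- Ordinarity of a representation matched by the eigencharacter of a level `N`, from the
congruences and the geometric statement at a multiple `N'` of the level. -/
theorem isOrdinaryAt_of_frobCharpoly {T : Type} [CommRing T] [IsLocalRing T] [IsNoetherianRing T]
    {N' : ℕ} [NeZero N'] (hN : N ∣ N') (hp2 : p ≠ 2)
    (hES : CongruenceProperty N' p)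
    (hG : ∀ P : ValuationSubring (AlgebraicClosure ℚ), P.LiesOverPrime p → NoTrivialQuotient P N' p)
    (ρ : GaloisRepAdic T) (habs : ρ.residual.IsAbsolutelyIrreducible)
    (hpT : (p : T) ∈ IsLocalRing.maximalIdeal T)
    (π : CuspForm.heckeAlgebra N 2 (↑S : Set ℕ) →+* T) (hfrob : FrobCharpoly ρ π)
    (hres : (GaloisRepAdic.ofResidualGaloisRep ρ.residual).IsOrdinaryAt p) :
    ρ.IsOrdinaryAt p := by
  obtain ⟨r, hr⟩ := exists_restrictHom (M := N') (R := N) hN (S := S)
    (S' := S ∪ N'.primeFactors) Finset.subset_union_left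
    (fun q hq hqN => Finset.mem_union_right _ (Nat.mem_primeFactors.mpr ⟨hq, hqN, NeZero.ne N'⟩))
  refine isOrdinaryAt_of_noHom (modelOfCongruence hES) ρ habs hp2 hpT (π.comp r)
    ?_ hres (fun P hP => levelNoHom_of_noTrivialQuotient hES (hG P hP))
  intro ℓ hℓ hℓN hℓS A hA σ hσ
  rw [RingHom.comp_apply, hr ℓ hℓ hℓN hℓS]
  exact hfrob ℓ hℓ _ _ A hA σ hσ

/-- The multiple `p (4 N₀)` of a level `N = p N₀`, `p ∤ N₀`. -/
theorem exists_four_mul_level (hp2 : p ≠ 2) (hN : p ∣ N ∧ ¬ p ^ 2 ∣ N) :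
    ∃ (M : ℕ) (_ : NeZero (p * M)), N ∣ p * M ∧ 4 ∣ M ∧ ¬ p ∣ M := by
  obtain ⟨⟨N₀, rfl⟩, h2⟩ := hN
  have hpN₀ : ¬ p ∣ N₀ := fun h => h2 (by rw [sq]; exact mul_dvd_mul_left p h)
  have hp4 : ¬ p ∣ 4 * N₀ := fun h => ((Fact.out : p.Prime).dvd_mul.mp h).elim
    (fun h4 => hp2 ((Nat.prime_dvd_prime_iff_eq Fact.out Nat.prime_two).mp
      ((Fact.out : p.Prime).dvd_of_dvd_pow (show p ∣ 2 ^ 2 from h4)))) hpN₀
  have hne : N₀ ≠ 0 := fun h => NeZero.ne (p * N₀) (by rw [h, mul_zero])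
  exact ⟨4 * N₀, ⟨mul_ne_zero (Fact.out : p.Prime).ne_zero (mul_ne_zero (by norm_num) hne)⟩,
    mul_dvd_mul_left p (dvd_mul_left N₀ 4), dvd_mul_right 4 N₀, hp4⟩

/-- S33 from the congruences and the geometric statement at a multiple `N'` of the level. -/
theorem isOrdinaryAt_of_level {N' : ℕ} [NeZero N'] (hN : N ∣ N') (hp2 : p ≠ 2)
    (hES : CongruenceProperty N' p)
    (hG : ∀ P : ValuationSubring (AlgebraicClosure ℚ), P.LiesOverPrime p → NoTrivialQuotient P N' p)
    (hpO : (p : O) ∈ IsLocalRing.maximalIdeal O)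
    (H : CuspForm.HeckeGaloisRepDatum N (↑S : Set ℕ) O θ T)
    (hres : (GaloisRepAdic.ofResidualGaloisRep H.ρ.residual).IsOrdinaryAt p) :
    H.ρ.IsOrdinaryAt p :=
  isOrdinaryAt_of_frobCharpoly hN hp2 hES hG H.ρ H.residual_absIrr
    (by rw [← map_natCast (algebraMap O T) p]; exact map_nonunit (algebraMap O T) _ hpO)
    H.π H.charpoly_frob hres

/-- S33 in the shape of its statement. -/
theorem isOrdinaryAt_of_four_mul (hp2 : p ≠ 2)
    (hES : ∀ (N p : ℕ) [NeZero N] [Fact p.Prime], CongruenceProperty N p)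
    (hG : ∀ (A : ValuationSubring (AlgebraicClosure ℚ)) (M : ℕ) [NeZero (p * M)],
      A.LiesOverPrime p → 4 ∣ M → ¬ p ∣ M → NoTrivialQuotient A (p * M) p)
    (hN : p ∣ N ∧ ¬ p ^ 2 ∣ N)
    (hpO : (p : O) ∈ IsLocalRing.maximalIdeal O)
    (H : CuspForm.HeckeGaloisRepDatum N (↑S : Set ℕ) O θ T)
    (hres : (GaloisRepAdic.ofResidualGaloisRep H.ρ.residual).IsOrdinaryAt p) :
    H.ρ.IsOrdinaryAt p := by
  obtain ⟨M, _, hNM, h4, hpM⟩ := exists_four_mul_level hp2 hN
  exact isOrdinaryAt_of_level (N' := p * M) hNM hp2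
    (hES _ p) (fun P hP => hG P M hP h4 hpM) hpO H hres

end Fermat.Agent.OrdinaryAtP

end
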